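import Mathlib
import Fermat.Prelude.Def_AlgebraicCurve_DivisorClassGroup
import Fermat.Prelude.Def_AlgebraicCurve_IsCurveOver
import Fermat.Prelude.Def_AlgebraicCurve_Repartitions

/-!
# Row S27, leaf ULIFT/UNIV (helper971): transport along isomorphisms of field extensions

`K ⊆ F` and `K' ⊆ F'` field extensions (in arbitrary, possibly different universes) and a
compatible pair of ring isomorphisms `φ : K ≃+* K'`, `ψ : F ≃+* F'`
(`ψ ∘ algebraMap = algebraMap ∘ φ`): all the Prelude notions of the function field `F / K`
(places, `ord`, `deg`, divisors, principal divisors, `Pic0`, its torsion, `genusFF`,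
`IsCurveOver`) are transported.
-/

set_option autoImplicit false
set_option linter.style.haveILetI false
set_option linter.unusedSectionVars false

universe u₁ u₂ u₃ u₄

open AlgebraicCurve

namespace Fermat.Agent.S27.H971

noncomputable section

/-! ## Semilinear invariance of `finrank` and of `Module.Finite` -/

section Semilinear

variable {R : Type u₁} {R' : Type u₃} {M : Type u₂} {M' : Type u₄}
  [Ring R] [Ring R'] [AddCommGroup M] [AddCommGroup M'] [Module R M] [Module R' M']

/-- `finrank` is invariant under semilinear isomorphisms. -/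
theorem finrank_eq_of_semilinear (i : R ≃+* R') (j : M ≃+ M')
    (hc : ∀ (r : R) (m : M), j (r • m) = i r • j m) :
    Module.finrank R M = Module.finrank R' M' := by
  have h := lift_rank_eq_of_equiv_equiv (i : R → R') j i.bijective hc
  unfold Module.finrank
  have h1 := congrArg Cardinal.toNat h
  rwa [Cardinal.toNat_lift, Cardinal.toNat_lift] at h1

/-- `Module.Finite` is invariant under semilinear isomorphisms. -/
theorem finite_of_semilinear (i : R ≃+* R') (j : M ≃+ M')
    (hc : ∀ (r : R) (m : M), j (r • m) = i r • j m) [Module.Finite R M] :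
    Module.Finite R' M' := by
  letI : RingHomSurjective (i : R →+* R') := ⟨i.surjective⟩
  let f : M →ₛₗ[(i : R →+* R')] M' :=
    { toFun := j
      map_add' := map_add j
      map_smul' := hc }
  exact Module.Finite.of_surjective f j.surjective

end Semilinear

/-! ## Kähler differentials and essential finiteness along isomorphisms of extensions -/

section Abstract

open KaehlerDifferential

/-- Kähler differentials of isomorphic extensions have the same rank.  The square
`R → A`, `S → B`, `R → S`, `A → B` and the inverse square are given by instances. -/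
theorem finrank_kaehler_eq_of_inverse (R S A B : Type*) [CommRing R] [CommRing S] [CommRing A]
    [CommRing B] [Algebra R S] [Algebra R A] [Algebra A B] [Algebra S B] [Algebra R B]
    [IsScalarTower R A B] [IsScalarTower R S B] [SMulCommClass S A B]
    [Algebra S R] [Algebra B A] [Algebra S A] [IsScalarTower S B A] [IsScalarTower S R A]
    [SMulCommClass R B A]
    (h₁ : ∀ a : A, algebraMap B A (algebraMap A B a) = a)
    (h₂ : ∀ b : B, algebraMap A B (algebraMap B A b) = b) :
    Module.finrank A Ω[A⁄R] = Module.finrank B Ω[B⁄S] := by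
  let m₁ : Ω[A⁄R] →ₗ[A] Ω[B⁄S] := KaehlerDifferential.map R S A B
  let m₂ : Ω[B⁄S] →ₗ[B] Ω[A⁄R] := KaehlerDifferential.map S R B A
  have hm₁ : ∀ (a : A) (ω : Ω[A⁄R]), m₁ (a • ω) = algebraMap A B a • m₁ ω := fun a ω => by
    rw [map_smul, algebraMap_smul]
  have hm₂ : ∀ (b : B) (ω : Ω[B⁄S]), m₂ (b • ω) = algebraMap B A b • m₂ ω := fun b ω => by
    rw [map_smul, algebraMap_smul]
  have h21 : ∀ ω : Ω[A⁄R], m₂ (m₁ ω) = ω := by
    intro ω
    have hω : ω ∈ Submodule.span A (Set.range (D R A)) := by
      rw [KaehlerDifferential.span_range_derivation]; exact Submodule.mem_top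
    induction hω using Submodule.span_induction with
    | mem x hx =>
      obtain ⟨a, rfl⟩ := hx
      show KaehlerDifferential.map S R B A (KaehlerDifferential.map R S A B (D R A a)) = _
      rw [KaehlerDifferential.map_D, KaehlerDifferential.map_D, h₁]
    | zero => simp
    | add x y _ _ hx hy => rw [map_add, map_add, hx, hy]
    | smul a x _ hx => rw [hm₁, hm₂, h₁, hx]
  have h12 : ∀ ω : Ω[B⁄S], m₁ (m₂ ω) = ω := by
    intro ω
    have hω : ω ∈ Submodule.span B (Set.range (D S B)) := by
      rw [KaehlerDifferential.span_range_derivation]; exact Submodule.mem_top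
    induction hω using Submodule.span_induction with
    | mem x hx =>
      obtain ⟨b, rfl⟩ := hx
      show KaehlerDifferential.map R S A B (KaehlerDifferential.map S R B A (D S B b)) = _
      rw [KaehlerDifferential.map_D, KaehlerDifferential.map_D, h₂]
    | zero => simp
    | add x y _ _ hx hy => rw [map_add, map_add, hx, hy]
    | smul b x _ hx => rw [hm₂, hm₁, h₂, hx]
  let i : A ≃+* B :=
    { toFun := algebraMap A B
      invFun := algebraMap B A
      left_inv := h₁
      right_inv := h₂
      map_mul' := map_mul _
      map_add' := map_add _ }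
  let j : Ω[A⁄R] ≃+ Ω[B⁄S] :=
    { toFun := m₁
      invFun := m₂
      left_inv := h21
      right_inv := h12
      map_add' := map_add m₁ }
  exact finrank_eq_of_semilinear i j hm₁

/-- Essential finiteness is transported along isomorphisms of extensions. -/
theorem essFiniteType_of_surjective (R S A B : Type*) [CommRing R] [CommRing S] [CommRing A]
    [CommRing B] [Algebra R A] [Algebra S B] [Algebra S R] [Algebra A B] [Algebra S A]
    [IsScalarTower S R A] [IsScalarTower S A B]
    (hSR : Function.Surjective (algebraMap S R)) (hAB : Function.Surjective (algebraMap A B))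
    [Algebra.EssFiniteType R A] : Algebra.EssFiniteType S B := by
  haveI : Algebra.FiniteType S R :=
    Algebra.FiniteType.of_surjective (Algebra.ofId S R) hSR
  haveI : Algebra.FiniteType A B :=
    Algebra.FiniteType.of_surjective (Algebra.ofId A B) hAB
  haveI : Algebra.EssFiniteType S A := Algebra.EssFiniteType.comp S R A
  exact Algebra.EssFiniteType.comp S A B

end Abstract

/-! ## Compatible pairs of isomorphisms -/

/-- A compatible pair of isomorphisms between the field extensions `F / K` and `F' / K'`. -/
structure FieldPairEquiv (K : Type u₁) (F : Type u₂) (K' : Type u₃) (F' : Type u₄)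
    [Field K] [Field F] [Algebra K F] [Field K'] [Field F'] [Algebra K' F'] where
  /-- the isomorphism of the base fields -/
  φ : K ≃+* K'
  /-- the isomorphism of the function fields -/
  ψ : F ≃+* F'
  comm : ∀ a : K, ψ (algebraMap K F a) = algebraMap K' F' (φ a)

namespace FieldPairEquiv

variable {K : Type u₁} {F : Type u₂} {K' : Type u₃} {F' : Type u₄}
  [Field K] [Field F] [Algebra K F] [Field K'] [Field F'] [Algebra K' F']

/-- The inverse pair. -/
def symm (e : FieldPairEquiv K F K' F') : FieldPairEquiv K' F' K F where
  φ := e.φ.symm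
  ψ := e.ψ.symm
  comm := fun a => by
    apply e.ψ.injective
    rw [RingEquiv.apply_symm_apply, e.comm, RingEquiv.apply_symm_apply]

@[simp] theorem symm_φ (e : FieldPairEquiv K F K' F') : e.symm.φ = e.φ.symm := rfl
@[simp] theorem symm_ψ (e : FieldPairEquiv K F K' F') : e.symm.ψ = e.ψ.symm := rfl

variable (e : FieldPairEquiv K F K' F')

/-! ### Places -/

/-- The image of a place. -/
def placeMap (v : Place K F) : Place K' F' where
  toValuationSubring := v.toValuationSubring.comap (e.ψ.symm : F' →+* F)
  algebraMap_mem' := fun a => by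
    show (e.ψ.symm : F' →+* F) (algebraMap K' F' a) ∈ v.toValuationSubring
    have h := e.symm.comm a
    simp only [symm_ψ, symm_φ] at h
    rw [RingEquiv.coe_toRingHom, h]
    exact v.algebraMap_mem' _
  ne_top' := fun h => v.ne_top' <| by
    refine SetLike.ext fun x => ⟨fun _ => ValuationSubring.mem_top x, fun _ => ?_⟩
    have hx : e.ψ x ∈ v.toValuationSubring.comap (e.ψ.symm : F' →+* F) := by
      rw [h]; exact ValuationSubring.mem_top _
    have hx' : (e.ψ.symm : F' →+* F) (e.ψ x) ∈ v.toValuationSubring := hx
    rwa [RingEquiv.coe_toRingHom, RingEquiv.symm_apply_apply] at hx'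
  isPrincipalIdealRing' := by
    let g : v.toValuationSubring →+* v.toValuationSubring.comap (e.ψ.symm : F' →+* F) :=
      { toFun := fun x => ⟨e.ψ x, by
          show (e.ψ.symm : F' →+* F) (e.ψ x) ∈ v.toValuationSubring
          rw [RingEquiv.coe_toRingHom, RingEquiv.symm_apply_apply]; exact x.2⟩
        map_one' := by ext; simp
        map_mul' := fun x y => by ext; simp
        map_zero' := by ext; simp
        map_add' := fun x y => by ext; simp }
    have hg : Function.Surjective g := fun y =>
      ⟨⟨e.ψ.symm y, y.2⟩, by ext; simp [g]⟩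
    exact IsPrincipalIdealRing.of_surjective g hg

theorem mem_placeMap {v : Place K F} {x : F'} :
    x ∈ (e.placeMap v).toValuationSubring ↔ e.ψ.symm x ∈ v.toValuationSubring := Iff.rfl

theorem apply_mem_placeMap {v : Place K F} {x : F} :
    e.ψ x ∈ (e.placeMap v).toValuationSubring ↔ x ∈ v.toValuationSubring := by
  rw [mem_placeMap, RingEquiv.symm_apply_apply]

theorem symm_placeMap_placeMap (v : Place K F) : e.symm.placeMap (e.placeMap v) = v := by
  apply Place.ext
  ext x
  rw [mem_placeMap, mem_placeMap]
  simp

/-- The bijection between the places of `F / K` and of `F' / K'`. -/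
def placeEquiv : Place K F ≃ Place K' F' where
  toFun := e.placeMap
  invFun := e.symm.placeMap
  left_inv := e.symm_placeMap_placeMap
  right_inv := fun w => by
    have h := e.symm.symm_placeMap_placeMap w
    exact h

@[simp] theorem placeEquiv_apply (v : Place K F) : e.placeEquiv v = e.placeMap v := rfl

@[simp] theorem placeEquiv_symm_apply (w : Place K' F') :
    e.placeEquiv.symm w = e.symm.placeMap w := rfl

/-- The isomorphism between the valuation rings of `v` and of its image. -/
def valRingEquiv (v : Place K F) :
    v.toValuationSubring ≃+* (e.placeMap v).toValuationSubring where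
  toFun := fun x => ⟨e.ψ x, e.apply_mem_placeMap.mpr x.2⟩
  invFun := fun y => ⟨e.ψ.symm y, y.2⟩
  left_inv := fun x => by ext; simp
  right_inv := fun y => by ext; simp
  map_mul' := fun x y => by ext; simp
  map_add' := fun x y => by ext; simp

@[simp] theorem coe_valRingEquiv (v : Place K F) (x : v.toValuationSubring) :
    ((e.valRingEquiv v x : (e.placeMap v).toValuationSubring) : F') = e.ψ (x : F) := rfl

/-- `ord` is transported. -/
theorem ord_placeMap (v : Place K F) (f : F) : (e.placeMap v).ord (e.ψ f) = v.ord f := by
  rcases eq_or_ne f 0 with rfl | hf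
  · simp
  obtain ⟨π, hπ⟩ := IsDiscreteValuationRing.exists_irreducible v.toValuationSubring
  obtain ⟨u, hu⟩ := v.exists_unit_mul_zpow hf hπ
  set n := v.ord f with hn
  set E := e.valRingEquiv v with hE
  have hπ' : Irreducible (E π) := (MulEquiv.irreducible_iff E).mpr hπ
  have hu' : IsUnit (E (u : v.toValuationSubring)) := u.isUnit.map E
  have hcoeu : ((hu'.unit : (e.placeMap v).toValuationSubring) : F')
      = e.ψ ((u : v.toValuationSubring) : F) := by
    rw [IsUnit.unit_spec]
    rfl
  have hcoeπ : ((E π : (e.placeMap v).toValuationSubring) : F') = e.ψ (π : F) := rfl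
  have key : e.ψ f = ((hu'.unit : (e.placeMap v).toValuationSubring) : F')
      * (((E π : (e.placeMap v).toValuationSubring) : F') ^ n) := by
    rw [hcoeu, hcoeπ, hu, map_mul, map_zpow₀]
  rw [key, (e.placeMap v).ord_unit_smul_zpow hu'.unit hπ' n]

theorem ord_placeMap_symm (w : Place K' F') (f : F) :
    w.ord (e.ψ f) = (e.symm.placeMap w).ord f := by
  have h := e.ord_placeMap (e.symm.placeMap w) f
  have h2 : e.placeMap (e.symm.placeMap w) = w := e.symm.symm_placeMap_placeMap w
  rw [h2] at h
  exact h

/-- The isomorphism of the residue fields. -/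
def residueEquiv (v : Place K F) : v.ResidueField ≃+* (e.placeMap v).ResidueField :=
  IsLocalRing.ResidueField.mapEquiv (e.valRingEquiv v)

theorem residueEquiv_smul (v : Place K F) (a : K) (x : v.ResidueField) :
    e.residueEquiv v (a • x) = e.φ a • e.residueEquiv v x := by
  rw [Algebra.smul_def, Algebra.smul_def, map_mul]
  congr 1
  have h3 : (e.valRingEquiv v) (algebraMap K v.toValuationSubring a)
      = algebraMap K' (e.placeMap v).toValuationSubring (e.φ a) := by
    ext
    rw [coe_valRingEquiv, Place.coe_algebraMap, Place.coe_algebraMap, e.comm]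
  show IsLocalRing.ResidueField.mapEquiv _ (IsLocalRing.residue _ _) = IsLocalRing.residue _ _
  rw [IsLocalRing.ResidueField.mapEquiv_apply, IsLocalRing.ResidueField.map_residue]
  exact congrArg _ h3

/-- `deg` is transported. -/
theorem deg_placeMap (v : Place K F) : (e.placeMap v).deg = v.deg :=
  (finrank_eq_of_semilinear e.φ (e.residueEquiv v).toAddEquiv
    (fun a x => e.residueEquiv_smul v a x)).symm

theorem finite_residueField_placeMap (v : Place K F) [Module.Finite K v.ResidueField] :
    Module.Finite K' (e.placeMap v).ResidueField :=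
  finite_of_semilinear e.φ (e.residueEquiv v).toAddEquiv
    (fun a x => e.residueEquiv_smul v a x)

/-! ### Divisors -/

/-- The isomorphism of the groups of divisors. -/
def divEquiv : Divisor K F ≃+ Divisor K' F' := Finsupp.domCongr e.placeEquiv

theorem divEquiv_apply (D : Divisor K F) (w : Place K' F') :
    e.divEquiv D w = D (e.symm.placeMap w) := by
  simp [divEquiv, Finsupp.domCongr_apply, Finsupp.equivMapDomain_apply]

theorem divEquiv_apply_placeMap (D : Divisor K F) (v : Place K F) :
    e.divEquiv D (e.placeMap v) = D v := by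
  rw [divEquiv_apply, symm_placeMap_placeMap]

@[simp] theorem divEquiv_single (v : Place K F) (n : ℤ) :
    e.divEquiv (Finsupp.single v n) = Finsupp.single (e.placeMap v) n := by
  simp [divEquiv, Finsupp.domCongr_apply, Finsupp.equivMapDomain_single]

theorem symm_divEquiv_divEquiv (D : Divisor K F) : e.symm.divEquiv (e.divEquiv D) = D := by
  ext v
  rw [divEquiv_apply, divEquiv_apply]
  have h : e.symm.symm.placeMap v = e.placeMap v := rfl
  rw [h, symm_placeMap_placeMap]

/-- `degree` is transported. -/
theorem degree_divEquiv (D : Divisor K F) :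
    Divisor.degree (e.divEquiv D) = Divisor.degree D := by
  induction D using Finsupp.induction with
  | zero => simp
  | single_add v n D _ _ ih =>
    rw [map_add, map_add, map_add, ih, divEquiv_single, Divisor.degree_single,
      Divisor.degree_single, deg_placeMap]

theorem divEquiv_mem_degZero {D : Divisor K F} (hD : D ∈ Divisor.degZero (K := K) (F := F)) :
    e.divEquiv D ∈ Divisor.degZero (K := K') (F := F') := by
  rw [Divisor.mem_degZero] at hD ⊢
  rw [degree_divEquiv, hD]

theorem isPrincipal_divEquiv {D : Divisor K F} (hD : Divisor.IsPrincipal D) :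
    Divisor.IsPrincipal (e.divEquiv D) := by
  obtain ⟨f, hf, hD⟩ := hD
  refine ⟨e.ψ f, (map_ne_zero e.ψ).mpr hf, fun w => ?_⟩
  rw [divEquiv_apply, hD, ord_placeMap_symm]

theorem divEquiv_mem_principal {D : Divisor K F}
    (hD : D ∈ Divisor.principal (K := K) (F := F)) :
    e.divEquiv D ∈ Divisor.principal (K := K') (F := F') :=
  e.isPrincipal_divEquiv hD

include e in
/-- Existence of principal divisors is transported. -/
theorem hasPrincipalDivisors [HasPrincipalDivisors K F] : HasPrincipalDivisors K' F' := by
  refine ⟨fun f' hf' => ?_⟩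
  have hf : e.ψ.symm f' ≠ 0 := (map_ne_zero e.ψ.symm).mpr hf'
  obtain ⟨D, hD, hdeg⟩ := HasPrincipalDivisors.exists_divisor (K := K) (e.ψ.symm f') hf
  refine ⟨e.divEquiv D, fun w => ?_, by rw [degree_divEquiv, hdeg]⟩
  rw [divEquiv_apply, hD]
  have h := e.ord_placeMap_symm w (e.ψ.symm f')
  rw [RingEquiv.apply_symm_apply] at h
  exact h.symm

/-! ### `Pic0` and its torsion -/

/-- The map on divisors of degree zero. -/
def degZeroMap : Divisor.degZero (K := K) (F := F) →+ Divisor.degZero (K := K') (F := F') :=
  ((e.divEquiv.toAddMonoidHom).comp (Divisor.degZero (K := K) (F := F)).subtype).codRestrict _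
    (fun D => e.divEquiv_mem_degZero D.2)

@[simp] theorem coe_degZeroMap (D : Divisor.degZero (K := K) (F := F)) :
    (e.degZeroMap D : Divisor K' F') = e.divEquiv (D : Divisor K F) := rfl

/-- The map on `Pic0`. -/
def pic0Map : Pic0 K F →+ Pic0 K' F' :=
  QuotientAddGroup.map _ _ e.degZeroMap (by
    rintro ⟨D, hD0⟩ hD
    simp only [AddSubgroup.mem_comap, AddSubgroup.mem_addSubgroupOf] at hD ⊢
    exact e.divEquiv_mem_principal hD)

theorem pic0Map_mk (D : Divisor.degZero (K := K) (F := F)) :
    e.pic0Map (Pic0.mk D) = Pic0.mk (e.degZeroMap D) := rfl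

theorem symm_pic0Map_pic0Map (x : Pic0 K F) : e.symm.pic0Map (e.pic0Map x) = x := by
  obtain ⟨D, rfl⟩ := Pic0.mk_surjective x
  rw [pic0Map_mk, pic0Map_mk]
  exact congrArg Pic0.mk (Subtype.ext (e.symm_divEquiv_divEquiv D))

/-- The isomorphism of the groups `Pic0`. -/
def pic0Equiv : Pic0 K F ≃+ Pic0 K' F' where
  toFun := e.pic0Map
  invFun := e.symm.pic0Map
  left_inv := e.symm_pic0Map_pic0Map
  right_inv := fun y => e.symm.symm_pic0Map_pic0Map y
  map_add' := map_add e.pic0Map

/-- The torsion subgroups of `Pic0` correspond. -/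
def torsionEquiv (n : ℕ) : Pic0.torsion K F n ≃ Pic0.torsion K' F' n :=
  e.pic0Equiv.toEquiv.subtypeEquiv (fun x => by
    rw [Pic0.mem_torsion, Pic0.mem_torsion]
    constructor
    · intro h
      show (n : ℤ) • e.pic0Equiv x = 0
      rw [← map_zsmul, h, map_zero]
    · intro h
      have h' : (n : ℤ) • e.pic0Equiv x = 0 := h
      rw [← map_zsmul] at h'
      exact (AddEquiv.map_eq_zero_iff e.pic0Equiv).mp h')

include e in
/-- **The number of torsion points of `Pic0` is transported.** -/
theorem natCard_torsion (n : ℕ) :
    Nat.card (Pic0.torsion K F n) = Nat.card (Pic0.torsion K' F' n) :=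
  Nat.card_congr (e.torsionEquiv n)

/-! ### Repartitions and the genus -/

theorem placeMap_symm_placeMap (w : Place K' F') : e.placeMap (e.symm.placeMap w) = w :=
  e.symm.symm_placeMap_placeMap w

/-- The valuations correspond. -/
theorem adicValuation_placeMap_le_exp_iff (v : Place K F) (f : F) (n : ℤ) :
    (e.placeMap v).adicValuation (e.ψ f) ≤ WithZero.exp n ↔
      v.adicValuation f ≤ WithZero.exp n := by
  rw [Place.adicValuation_le_exp_iff, Place.adicValuation_le_exp_iff, ord_placeMap,
    map_eq_zero_iff e.ψ e.ψ.injective]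

theorem adicValuation_placeMap_le_one_iff (v : Place K F) (f : F) :
    (e.placeMap v).adicValuation (e.ψ f) ≤ 1 ↔ v.adicValuation f ≤ 1 := by
  have h := e.adicValuation_placeMap_le_exp_iff v f 0
  simpa using h

/-- The ring isomorphism between the rings of all families `Place K F → F`. -/
def funEquiv : (Place K F → F) ≃+* (Place K' F' → F') where
  toFun := fun α w => e.ψ (α (e.symm.placeMap w))
  invFun := fun β v => e.ψ.symm (β (e.placeMap v))
  left_inv := fun α => by
    funext v
    simp only [RingEquiv.symm_apply_apply, symm_placeMap_placeMap]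
  right_inv := fun β => by
    funext w
    simp only [RingEquiv.apply_symm_apply, placeMap_symm_placeMap]
  map_mul' := fun α β => by
    funext w
    simp only [Pi.mul_apply, map_mul]
  map_add' := fun α β => by
    funext w
    simp only [Pi.add_apply, map_add]

@[simp] theorem funEquiv_apply (α : Place K F → F) (w : Place K' F') :
    e.funEquiv α w = e.ψ (α (e.symm.placeMap w)) := rfl

theorem funEquiv_apply_placeMap (α : Place K F → F) (v : Place K F) :
    e.funEquiv α (e.placeMap v) = e.ψ (α v) := by
  rw [funEquiv_apply, symm_placeMap_placeMap]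

theorem symm_funEquiv_funEquiv (α : Place K F → F) : e.symm.funEquiv (e.funEquiv α) = α :=
  e.funEquiv.left_inv α

theorem funEquiv_mem_repartitions {α : Place K F → F} (hα : α ∈ repartitions K F) :
    e.funEquiv α ∈ repartitions K' F' := by
  unfold repartitions at hα ⊢
  induction hα using Algebra.adjoin_induction with
  | mem α hα =>
    refine Algebra.subset_adjoin ?_
    have hsub : {w : Place K' F' | ¬ w.adicValuation (e.funEquiv α w) ≤ 1} ⊆
        e.placeMap '' {v : Place K F | ¬ v.adicValuation (α v) ≤ 1} := by
      intro w hw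
      refine ⟨e.symm.placeMap w, ?_, e.placeMap_symm_placeMap w⟩
      intro h
      apply hw
      rw [← e.placeMap_symm_placeMap w, funEquiv_apply_placeMap,
        adicValuation_placeMap_le_one_iff]
      exact h
    exact (Set.Finite.image _ hα).subset hsub
  | algebraMap r =>
    have h : e.funEquiv (algebraMap F (Place K F → F) r) =
        algebraMap F' (Place K' F' → F') (e.ψ r) := by
      funext w
      simp [Pi.algebraMap_apply]
    rw [h]
    exact Subalgebra.algebraMap_mem _ _
  | add α β _ _ hα hβ =>
    rw [map_add]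
    exact Subalgebra.add_mem _ hα hβ
  | mul α β _ _ hα hβ =>
    rw [map_mul]
    exact Subalgebra.mul_mem _ hα hβ

/-- The semilinear map between the rings of repartitions. -/
def repMap : ↥(repartitions K F) →ₛₗ[(e.φ : K →+* K')] ↥(repartitions K' F') where
  toFun := fun α => ⟨e.funEquiv α, e.funEquiv_mem_repartitions α.2⟩
  map_add' := fun α β => by
    apply Subtype.ext
    exact map_add e.funEquiv _ _
  map_smul' := fun a α => by
    apply Subtype.ext
    funext w
    show e.ψ (a • (α : Place K F → F) (e.symm.placeMap w)) =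
      e.φ a • e.ψ ((α : Place K F → F) (e.symm.placeMap w))
    rw [Algebra.smul_def, Algebra.smul_def, map_mul, e.comm]

@[simp] theorem coe_repMap (α : ↥(repartitions K F)) :
    ((e.repMap α : ↥(repartitions K' F')) : Place K' F' → F') =
      e.funEquiv (α : Place K F → F) := rfl

theorem symm_repMap_repMap (α : ↥(repartitions K F)) : e.symm.repMap (e.repMap α) = α :=
  Subtype.ext (e.symm_funEquiv_funEquiv α)

theorem repMap_mem_repartitionsOf {D : Divisor K F} {α : ↥(repartitions K F)}
    (hα : α ∈ repartitionsOf D) : e.repMap α ∈ repartitionsOf (e.divEquiv D) := by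
  intro w
  show w.adicValuation (e.funEquiv (α : Place K F → F) w) ≤ WithZero.exp (e.divEquiv D w)
  rw [← e.placeMap_symm_placeMap w, funEquiv_apply_placeMap, divEquiv_apply_placeMap,
    adicValuation_placeMap_le_exp_iff]
  exact hα _

theorem repMap_mem_principalRepartitions {α : ↥(repartitions K F)}
    (hα : α ∈ principalRepartitions K F) : e.repMap α ∈ principalRepartitions K' F' := by
  rw [mem_principalRepartitions_iff] at hα ⊢
  obtain ⟨f, hf⟩ := hα
  refine ⟨e.ψ f, ?_⟩
  funext w
  rw [coe_repMap, funEquiv_apply, hf]

theorem repMap_mem_sup {D : Divisor K F} {α : ↥(repartitions K F)}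
    (hα : α ∈ repartitionsOf D ⊔ principalRepartitions K F) :
    e.repMap α ∈ repartitionsOf (e.divEquiv D) ⊔ principalRepartitions K' F' := by
  obtain ⟨β, hβ, γ, hγ, rfl⟩ := Submodule.mem_sup.mp hα
  rw [map_add]
  exact Submodule.add_mem_sup (e.repMap_mem_repartitionsOf hβ)
    (e.repMap_mem_principalRepartitions hγ)

/-- The semilinear map `H¹(D) → H¹(D')`. -/
def h1Map (D : Divisor K F) : H1 D →ₛₗ[(e.φ : K →+* K')] H1 (e.divEquiv D) :=
  Submodule.mapQ _ _ e.repMap (fun _ hα => e.repMap_mem_sup hα)

theorem h1Map_bijective (D : Divisor K F) : Function.Bijective (e.h1Map D) := by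
  constructor
  · rw [injective_iff_map_eq_zero]
    intro x hx
    obtain ⟨α, rfl⟩ := Submodule.Quotient.mk_surjective _ x
    have h1 : e.h1Map D (Submodule.Quotient.mk α) = Submodule.Quotient.mk (e.repMap α) := rfl
    rw [h1, Submodule.Quotient.mk_eq_zero] at hx
    rw [Submodule.Quotient.mk_eq_zero]
    have h2 := e.symm.repMap_mem_sup hx
    rw [symm_repMap_repMap, symm_divEquiv_divEquiv] at h2
    exact h2
  · intro y
    obtain ⟨β, rfl⟩ := Submodule.Quotient.mk_surjective _ y
    refine ⟨Submodule.Quotient.mk (e.symm.repMap β), ?_⟩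
    have h1 : e.h1Map D (Submodule.Quotient.mk (e.symm.repMap β)) =
        Submodule.Quotient.mk (e.repMap (e.symm.repMap β)) := rfl
    rw [h1]
    congr 1
    exact e.symm.symm_repMap_repMap β

/-- The dimension of `H¹(D)` is transported. -/
theorem finrank_H1 (D : Divisor K F) :
    Module.finrank K (H1 D) = Module.finrank K' (H1 (e.divEquiv D)) :=
  finrank_eq_of_semilinear e.φ
    (AddEquiv.ofBijective (e.h1Map D).toAddMonoidHom (e.h1Map_bijective D))
    (fun a x => (e.h1Map D).map_smulₛₗ a x)

include e in
/-- **The genus is transported.** -/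
theorem genusFF_eq : genusFF K F = genusFF K' F' := by
  unfold genusFF
  have h := e.finrank_H1 (0 : Divisor K F)
  rwa [map_zero] at h

/-! ### The hypotheses of S27 -/

include e in
/-- The rank of the Kähler differentials is transported. -/
theorem finrank_kaehler : Module.finrank F Ω[F⁄K] = Module.finrank F' Ω[F'⁄K'] := by
  letI i1 : Algebra K K' := e.φ.toRingHom.toAlgebra
  letI i2 : Algebra F F' := e.ψ.toRingHom.toAlgebra
  letI i3 : Algebra K F' := ((algebraMap K' F').comp e.φ.toRingHom).toAlgebra
  haveI t1 : IsScalarTower K F F' := IsScalarTower.of_algebraMap_eq (fun a => (e.comm a).symm)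
  haveI t2 : IsScalarTower K K' F' := IsScalarTower.of_algebraMap_eq (fun _ => rfl)
  haveI c1 : SMulCommClass K' F F' := ⟨fun a b c => by
    simp only [Algebra.smul_def]; exact mul_left_comm _ _ _⟩
  letI i4 : Algebra K' K := e.φ.symm.toRingHom.toAlgebra
  letI i5 : Algebra F' F := e.ψ.symm.toRingHom.toAlgebra
  letI i6 : Algebra K' F := ((algebraMap K F).comp e.φ.symm.toRingHom).toAlgebra
  haveI t3 : IsScalarTower K' F' F :=
    IsScalarTower.of_algebraMap_eq (fun a => (e.symm.comm a).symm)
  haveI t4 : IsScalarTower K' K F := IsScalarTower.of_algebraMap_eq (fun _ => rfl)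
  haveI c2 : SMulCommClass K F' F := ⟨fun a b c => by
    simp only [Algebra.smul_def]; exact mul_left_comm _ _ _⟩
  exact finrank_kaehler_eq_of_inverse K K' F F' (fun a => e.ψ.symm_apply_apply a)
    (fun b => e.ψ.apply_symm_apply b)

include e in
/-- `IsCurveOver` is transported. -/
theorem isCurveOver [IsCurveOver K F] : IsCurveOver K' F' :=
  { toHasPrincipalDivisors :=
      haveI := IsCurveOver.hasPrincipalDivisors (K := K) (F := F)
      e.hasPrincipalDivisors
    finiteResidue := fun w => by
      haveI : Module.Finite K (e.symm.placeMap w).ResidueField :=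
        IsCurveOver.finiteResidue _
      have h := e.finite_residueField_placeMap (e.symm.placeMap w)
      rwa [e.placeMap_symm_placeMap w] at h
    kaehler_free_rank_one :=
      ⟨Module.Free.of_divisionRing F' _, by
        rw [← e.finrank_kaehler]; exact IsCurveOver.finrank_kaehler⟩ }

include e in
/-- Essential finiteness is transported. -/
theorem essFiniteType [Algebra.EssFiniteType K F] : Algebra.EssFiniteType K' F' := by
  letI i4 : Algebra K' K := e.φ.symm.toRingHom.toAlgebra
  letI i2 : Algebra F F' := e.ψ.toRingHom.toAlgebra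
  letI i6 : Algebra K' F := ((algebraMap K F).comp e.φ.symm.toRingHom).toAlgebra
  haveI t4 : IsScalarTower K' K F := IsScalarTower.of_algebraMap_eq (fun _ => rfl)
  haveI t5 : IsScalarTower K' F F' := IsScalarTower.of_algebraMap_eq (fun a => by
    show algebraMap K' F' a = e.ψ (algebraMap K F (e.φ.symm a))
    rw [e.comm, RingEquiv.apply_symm_apply])
  exact essFiniteType_of_surjective K K' F F' e.φ.symm.surjective e.ψ.surjective

include e in
theorem isAlgClosed [IsAlgClosed K] : IsAlgClosed K' := by
  apply IsAlgClosed.of_exists_root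
  intro p _ hirr
  have hdeg : (p.map (e.φ.symm : K' →+* K)).degree ≠ 0 := by
    rw [Polynomial.degree_map]
    exact (Polynomial.degree_pos_of_irreducible hirr).ne'
  obtain ⟨x, hx⟩ := IsAlgClosed.exists_root _ hdeg
  refine ⟨e.φ x, ?_⟩
  have h := congrArg (e.φ : K →+* K') hx
  rw [Polynomial.IsRoot.def, Polynomial.eval_map] at hx
  have h2 := Polynomial.hom_eval₂ p (e.φ.symm : K' →+* K) (e.φ : K →+* K') x
  rw [hx, map_zero] at h2
  have h3 : (e.φ : K →+* K').comp (e.φ.symm : K' →+* K) = RingHom.id K' := by
    ext a; simp
  rw [h3, Polynomial.eval₂_id] at h2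
  exact h2.symm

include e in
theorem charZero [CharZero K] : CharZero K' :=
  charZero_of_injective_ringHom (f := (e.φ : K →+* K')) e.φ.injective

end FieldPairEquiv

/-! ## Reduction of S27 to one universe -/

section ULift

universe u v

/-- **Reduction of S27 to the case where `K` and `F` live in the same universe.** -/
theorem s27_of_one_universe
    (H : ∀ (K F : Type (max u v)) [Field K] [Field F] [Algebra K F] [IsAlgClosed K]
      [CharZero K] [IsCurveOver K F] [Algebra.EssFiniteType K F] (ℓ : ℕ) [Fact ℓ.Prime]
      (k : ℕ), Nat.card (Pic0.torsion K F (ℓ ^ k)) = ℓ ^ (2 * genusFF K F * k))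
    (K : Type u) (F : Type v) [Field K] [Field F] [Algebra K F] [IsAlgClosed K] [CharZero K]
    [IsCurveOver K F] [Algebra.EssFiniteType K F] (ℓ : ℕ) [Fact ℓ.Prime] (k : ℕ) :
    Nat.card (Pic0.torsion K F (ℓ ^ k)) = ℓ ^ (2 * genusFF K F * k) := by
  letI : Algebra (ULift.{v} K) (ULift.{u} F) :=
    (((ULift.ringEquiv (R := F)).symm.toRingHom.comp (algebraMap K F)).comp
      (ULift.ringEquiv (R := K)).toRingHom).toAlgebra
  let e : FieldPairEquiv K F (ULift.{v} K) (ULift.{u} F) :=
    { φ := (ULift.ringEquiv (R := K)).symm
      ψ := (ULift.ringEquiv (R := F)).symm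
      comm := fun _ => rfl }
  haveI := e.isAlgClosed
  haveI := e.charZero
  haveI := e.isCurveOver
  haveI := e.essFiniteType
  rw [e.natCard_torsion, e.genusFF_eq]
  exact H (ULift.{v} K) (ULift.{u} F) ℓ k

end ULift

end

end Fermat.Agent.S27.H971
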